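/-
helper90 (P-ORD / row 1144 ORD-GB-N3 N-AUX): abstract part.

* `auxN_ord_eq_zero` : value `1` at a place forces `ord = 0`;
* `auxN_all` : the set of ALL zeros of a generic section (no prescribed zero), cardinality `n`;
* `auxN_pair` : one step of the successive choice on a pair of function fields: sections `x`
  (with a prescribed simple zero `Q`) and `y` with poles of the SAME exact order `n` and their
  sets of (extra) zeros.
-/
import Fermat.Agent.H93.FF.AuxAbs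
import Fermat.Agent.H23.PlaceBasic

set_option autoImplicit false
set_option linter.style.haveILetI false

noncomputable section

open AlgebraicCurve

namespace Fermat.Agent.H90.ORD

variable {K F : Type*} [Field K] [Field F] [Algebra K F]

/-- value `1` at a place forces `ord = 0` -/
theorem auxN_ord_eq_zero (v : Place K F) {f : F} (h : 1 ≤ v.ord (f - 1)) : v.ord f = 0 := by
  have hne : f - 1 ≠ 0 := by
    intro h0
    rw [h0, Place.ord_zero] at h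
    omega
  have h1 : v.ord ((1 : F) + (f - 1)) = v.ord (1 : F) :=
    Fermat.Agent.H23.ord_add_eq_of_lt v one_ne_zero hne (by rw [Place.ord_one]; omega)
  rw [Place.ord_one] at h1
  rwa [add_sub_cancel] at h1

/-- The set of ALL zeros of a generic section without prescribed zero, and its cardinality. -/
theorem auxN_all (hdeg : ∀ v : Place K F, v.deg = 1) [HasPrincipalDivisors K F]
    {Qinf : Place K F} (bad : Finset (Place K F)) {n : ℕ} {f : F}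
    (hf0 : f ≠ 0) (hinf : Qinf.ord f = -(n : ℤ))
    (hreg : ∀ v, v ≠ Qinf → 0 ≤ v.ord f ∧ v.ord f ≤ 1)
    (hbad : ∀ v ∈ bad, v ≠ Qinf → v.ord f = 0) :
    ∃ Z : Finset (Place K F), Qinf ∉ Z ∧ (∀ v ∈ Z, v.ord f = 1) ∧
      (∀ v, v ≠ Qinf → v ∉ Z → v.ord f = 0) ∧ Z.card = n ∧ Disjoint Z bad := by
  classical
  obtain ⟨D, hD, hD0⟩ := HasPrincipalDivisors.exists_divisor (K := K) f hf0
  set Z : Finset (Place K F) := D.support.filter (fun v => v ≠ Qinf) with hZ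
  have hmem : ∀ v, v ∈ Z ↔ v.ord f ≠ 0 ∧ v ≠ Qinf := by
    intro v
    rw [hZ, Finset.mem_filter, Finsupp.mem_support_iff, hD]
  have h1 : ∀ v ∈ Z, v.ord f = 1 := by
    intro v hv
    obtain ⟨h0, hv1⟩ := (hmem v).mp hv
    have := hreg v hv1
    omega
  have hQinfZ : Qinf ∉ Z := fun h => ((hmem _).mp h).2 rfl
  refine ⟨Z, hQinfZ, h1, ?_, ?_, ?_⟩
  · intro v hv1 hv
    by_contra h0
    exact hv ((hmem v).mpr ⟨h0, hv1⟩)
  · have hsub : D.support ⊆ insert Qinf Z := by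
      intro v hv
      rw [Finsupp.mem_support_iff, hD] at hv
      by_cases hv1 : v = Qinf
      · rw [hv1]
        exact Finset.mem_insert_self _ _
      exact Finset.mem_insert_of_mem ((hmem v).mpr ⟨hv, hv1⟩)
    have hsum : Divisor.degree D = ∑ v ∈ insert Qinf Z, D v := by
      rw [Fermat.Agent.H58.rr_degree_eq_sum_of_deg_one hdeg]
      exact Finsupp.sum_of_support_subset D hsub (fun _ n => n) (fun _ _ => rfl)
    have hZsum : ∑ v ∈ Z, D v = (Z.card : ℤ) := by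
      rw [Finset.sum_congr rfl (fun v hv => by rw [hD, h1 v hv])]
      simp
    rw [Finset.sum_insert hQinfZ, hZsum, hD, hinf, hD0] at hsum
    omega
  · rw [Finset.disjoint_left]
    intro v hv hvb
    obtain ⟨h0, hv1⟩ := (hmem v).mp hv
    exact h0 (hbad v hvb hv1)

/-- **One step of the successive choice on a pair of function fields.** -/
theorem auxN_pair {F1 F2 : Type*} [Field F1] [Field F2] [Algebra K F1] [Algebra K F2]
    (hdeg1 : ∀ v : Place K F1, v.deg = 1) (hdeg2 : ∀ v : Place K F2, v.deg = 1)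
    [HasPrincipalDivisors K F1] [HasPrincipalDivisors K F2]
    {Qinf1 Q : Place K F1} {Qinf2 : Place K F2} (hQ : Q ≠ Qinf1)
    (nodes1 bad1 : Finset (Place K F1)) (nodes2 bad2 : Finset (Place K F2))
    (h1 : ∃ n₀ : ℕ, ∀ n : ℕ, n₀ ≤ n → ∃ f : F1, f ≠ 0 ∧ Qinf1.ord f = -(n : ℤ) ∧
      Q.ord f = 1 ∧ (∀ v, v ≠ Qinf1 → 0 ≤ v.ord f ∧ v.ord f ≤ 1) ∧
      (∀ v ∈ nodes1, 1 ≤ v.ord (f - 1)) ∧
      ∀ v ∈ bad1, v ≠ Q → v ≠ Qinf1 → v.ord f = 0)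
    (h2 : ∃ n₀ : ℕ, ∀ n : ℕ, n₀ ≤ n → ∃ f : F2, f ≠ 0 ∧ Qinf2.ord f = -(n : ℤ) ∧
      (∀ v, v ≠ Qinf2 → 0 ≤ v.ord f ∧ v.ord f ≤ 1) ∧
      (∀ v ∈ nodes2, 1 ≤ v.ord (f - 1)) ∧
      ∀ v ∈ bad2, v ≠ Qinf2 → v.ord f = 0) (m : ℕ) :
    ∃ (n : ℕ) (x : F1) (y : F2) (Z1 : Finset (Place K F1)) (Z2 : Finset (Place K F2)),
      m ≤ n ∧ x ≠ 0 ∧ y ≠ 0 ∧ Qinf1.ord x = -(n : ℤ) ∧ Qinf2.ord y = -(n : ℤ) ∧
      Q.ord x = 1 ∧ (∀ v, v ≠ Qinf1 → 0 ≤ v.ord x) ∧ (∀ v, v ≠ Qinf2 → 0 ≤ v.ord y) ∧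
      (∀ v ∈ nodes1, 1 ≤ v.ord (x - 1)) ∧ (∀ v ∈ nodes2, 1 ≤ v.ord (y - 1)) ∧
      Qinf1 ∉ Z1 ∧ Q ∉ Z1 ∧ (∀ v ∈ Z1, v.ord x = 1) ∧
      (∀ v, v ≠ Qinf1 → v ≠ Q → v ∉ Z1 → v.ord x = 0) ∧ Disjoint Z1 bad1 ∧
      Qinf2 ∉ Z2 ∧ (∀ v ∈ Z2, v.ord y = 1) ∧ (∀ v, v ≠ Qinf2 → v ∉ Z2 → v.ord y = 0) ∧
      Disjoint Z2 bad2 ∧ Z1.card + 1 = n ∧ Z2.card = n := by
  obtain ⟨n1, hn1⟩ := h1
  obtain ⟨n2, hn2⟩ := h2
  set n := max (max n1 n2) m with hn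
  obtain ⟨x, hx0, hxinf, hxQ, hxreg, hxnode, hxbad⟩ :=
    hn1 n (le_trans (le_max_left _ _) (le_max_left _ _))
  obtain ⟨y, hy0, hyinf, hyreg, hynode, hybad⟩ :=
    hn2 n (le_trans (le_max_right _ _) (le_max_left _ _))
  obtain ⟨Z1, a1, a2, a3, a4, a5, a6⟩ :=
    Fermat.Agent.H93.FF.aux_one hdeg1 hQ bad1 hx0 hxinf hxQ hxreg hxbad
  obtain ⟨Z2, b1, b2, b3, b4, b5⟩ := auxN_all hdeg2 bad2 hy0 hyinf hyreg hybad
  exact ⟨n, x, y, Z1, Z2, le_max_right _ _, hx0, hy0, hxinf, hyinf, hxQ,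
    fun v hv => (hxreg v hv).1, fun v hv => (hyreg v hv).1, hxnode, hynode,
    a1, a2, a3, a4, a6, b1, b2, b3, b5, a5, b4⟩

end Fermat.Agent.H90.ORD
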