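/-
helper90 (P-ORD / row 1144 ORD-GB-N3 N-AUX): existence of the auxiliary sections on the
two-component fibre.

`auxSectionsN : GenericSectionN → AuxSectionsN`  (twin of `Fermat.Agent.H93.FF.auxSections`).
-/
import Fermat.Agent.H94.ORD.JacInterfaces
import Fermat.Agent.H90.ORD.AuxPair

set_option autoImplicit false
set_option synthInstance.maxHeartbeats 400000
set_option linter.style.haveILetI false
set_option linter.unusedSectionVars false

noncomputable section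

open AlgebraicCurve ModularCurve Fermat.Agent.H27.ESD

namespace Fermat.Agent.H90.ORD

open Fermat.Agent.H10.FF Fermat.Agent.H72.FF Fermat.Agent.H18.ORD Fermat.Agent.H92.ORD
  Fermat.Agent.H94.FF Fermat.Agent.H94.ORD

variable {N : ℕ} {A : ValuationSubring Qb} {Foo F0 : Type} [Field Foo] [Field F0]
  [Algebra (kRes A) Foo] [Algebra (kRes A) F0] {ι : Type}

/-- The divisor data of ONE auxiliary pair `(x, y)`. -/
structure IsAuxOneN (G : NodalData N A Foo F0 ι) (Qmain : NP A Foo F0 ι)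
    (B₀ : Finset (NP A Foo F0 ι)) (Qoo : Place (kRes A) Foo) (Q0 : Place (kRes A) F0)
    (m n : ℕ) (x : Foo) (y : F0) (Z : Finset (NP A Foo F0 ι)) : Prop where
  le : m ≤ n
  ne_zero : x ≠ 0 ∧ y ≠ 0
  glued : IsGlued G x y
  node_unit : ∀ ν, (G.nOo ν).ord x = 0 ∧ (G.n0 ν).ord y = 0
  pole : Qoo.ord x = -(n : ℤ) ∧ Q0.ord y = -(n : ℤ)
  reg_oo : ∀ v, v ≠ Qoo → 0 ≤ v.ord x
  reg_zero : ∀ v, v ≠ Q0 → 0 ≤ v.ord y
  zero_main : ordPair x y Qmain = 1
  zero_extra : ∀ v ∈ Z, ordPair x y v = 1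
  zero_else : ∀ v, IsSm G v → v ≠ NPt.oo Qoo → v ≠ NPt.zero Q0 → v ≠ Qmain → v ∉ Z →
    ordPair x y v = 0
  sm_extra : ∀ v ∈ Z, IsSm G v
  qinf_notMem : NPt.oo Qoo ∉ Z ∧ NPt.zero Q0 ∉ Z
  avoid : ∀ v ∈ B₀, v ∉ Z
  card : Z.card + 1 = 2 * n

theorem npt_oo_injective : Function.Injective
    (NPt.oo : Place (kRes A) Foo → NP A Foo F0 ι) := fun _ _ h => NPt.oo.inj h

theorem npt_zero_injective : Function.Injective
    (NPt.zero : Place (kRes A) F0 → NP A Foo F0 ι) := fun _ _ h => NPt.zero.inj h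

/-- Builder: from the data on the two components to `IsAuxOneN`. -/
theorem auxN_build [DecidableEq (NP A Foo F0 ι)] (G : NodalData N A Foo F0 ι)
    (Qmain : NP A Foo F0 ι)
    (B₀ : Finset (NP A Foo F0 ι)) (Qoo : Place (kRes A) Foo) (Q0 : Place (kRes A) F0)
    (m n : ℕ) (x : Foo) (y : F0) (Z1 : Finset (Place (kRes A) Foo))
    (Z2 : Finset (Place (kRes A) F0)) (hmn : m ≤ n) (hx0 : x ≠ 0) (hy0 : y ≠ 0)
    (hxinf : Qoo.ord x = -(n : ℤ)) (hyinf : Q0.ord y = -(n : ℤ))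
    (hxreg : ∀ v, v ≠ Qoo → 0 ≤ v.ord x) (hyreg : ∀ v, v ≠ Q0 → 0 ≤ v.ord y)
    (hxnode : ∀ ν, 1 ≤ (G.nOo ν).ord (x - 1)) (hynode : ∀ ν, 1 ≤ (G.n0 ν).ord (y - 1))
    (hmain : ordPair x y Qmain = 1)
    (hZ1inf : Qoo ∉ Z1) (hZ2inf : Q0 ∉ Z2)
    (hZ1 : ∀ v ∈ Z1, v.ord x = 1) (hZ2 : ∀ v ∈ Z2, v.ord y = 1)
    (helse1 : ∀ v, v ≠ Qoo → NPt.oo v ≠ Qmain → v ∉ Z1 → v.ord x = 0)
    (helse2 : ∀ v, v ≠ Q0 → NPt.zero v ≠ Qmain → v ∉ Z2 → v.ord y = 0)
    (hd1 : ∀ v ∈ Z1, NPt.oo v ∉ B₀) (hd2 : ∀ v ∈ Z2, NPt.zero v ∉ B₀)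
    (hcard : Z1.card + Z2.card + 1 = 2 * n) :
    IsAuxOneN G Qmain B₀ Qoo Q0 m n x y (Z1.image NPt.oo ∪ Z2.image NPt.zero) := by
  have hmemoo : ∀ v : Place (kRes A) Foo,
      (NPt.oo v : NP A Foo F0 ι) ∈ Z1.image NPt.oo ∪ Z2.image NPt.zero ↔ v ∈ Z1 := by
    intro v
    rw [Finset.mem_union, Finset.mem_image, Finset.mem_image]
    constructor
    · rintro (⟨w, hw, h⟩ | ⟨w, -, h⟩)
      · rw [← NPt.oo.inj h]
        exact hw
      · exact absurd h (by simp)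
    · intro h
      exact Or.inl ⟨v, h, rfl⟩
  have hmemz : ∀ v : Place (kRes A) F0,
      (NPt.zero v : NP A Foo F0 ι) ∈ Z1.image NPt.oo ∪ Z2.image NPt.zero ↔ v ∈ Z2 := by
    intro v
    rw [Finset.mem_union, Finset.mem_image, Finset.mem_image]
    constructor
    · rintro (⟨w, -, h⟩ | ⟨w, hw, h⟩)
      · exact absurd h (by simp)
      · rw [← NPt.zero.inj h]
        exact hw
    · intro h
      exact Or.inr ⟨v, h, rfl⟩
  have hmemn : ∀ ν : ι,
      (NPt.node ν : NP A Foo F0 ι) ∉ Z1.image NPt.oo ∪ Z2.image NPt.zero := by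
    intro ν h
    rw [Finset.mem_union, Finset.mem_image, Finset.mem_image] at h
    rcases h with ⟨w, -, h⟩ | ⟨w, -, h⟩
    · exact absurd h (by simp)
    · exact absurd h (by simp)
  have hnu : ∀ ν, (G.nOo ν).ord x = 0 ∧ (G.n0 ν).ord y = 0 := fun ν =>
    ⟨auxN_ord_eq_zero _ (hxnode ν), auxN_ord_eq_zero _ (hynode ν)⟩
  refine
    { le := hmn
      ne_zero := ⟨hx0, hy0⟩
      glued := ?_
      node_unit := hnu
      pole := ⟨hxinf, hyinf⟩
      reg_oo := hxreg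
      reg_zero := hyreg
      zero_main := hmain
      zero_extra := ?_
      zero_else := ?_
      sm_extra := ?_
      qinf_notMem := ⟨fun h => hZ1inf ((hmemoo _).mp h), fun h => hZ2inf ((hmemz _).mp h)⟩
      avoid := ?_
      card := ?_ }
  · intro ν
    refine ⟨1, ?_, ?_⟩
    · rw [map_one, nb_mem_nonunits_iff]
      exact Or.inr (hxnode ν)
    · rw [map_one, nb_mem_nonunits_iff]
      exact Or.inr (hynode ν)
  · intro v hv
    rcases v with Q | Q | ν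
    · exact hZ1 Q ((hmemoo Q).mp hv)
    · exact hZ2 Q ((hmemz Q).mp hv)
    · exact absurd hv (hmemn ν)
  · intro v hsm h1 h2 h3 h4
    rcases v with Q | Q | ν
    · refine helse1 Q (fun h => h1 (by rw [h])) (fun h => h3 h) (fun h => h4 ((hmemoo Q).mpr h))
    · refine helse2 Q (fun h => h2 (by rw [h])) (fun h => h3 h) (fun h => h4 ((hmemz Q).mpr h))
    · exact absurd hsm (by simp [IsSm])
  · intro v hv
    rcases v with Q | Q | ν
    · show Q ∉ Set.range G.nOo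
      rintro ⟨ν, rfl⟩
      have := hZ1 _ ((hmemoo _).mp hv)
      rw [(hnu ν).1] at this
      exact zero_ne_one this
    · show Q ∉ Set.range G.n0
      rintro ⟨ν, rfl⟩
      have := hZ2 _ ((hmemz _).mp hv)
      rw [(hnu ν).2] at this
      exact zero_ne_one this
    · exact absurd hv (hmemn ν)
  · intro v hvB hv
    rcases v with Q | Q | ν
    · exact hd1 Q ((hmemoo Q).mp hv) hvB
    · exact hd2 Q ((hmemz Q).mp hv) hvB
    · exact hmemn ν hv
  · have hdis : Disjoint (Z1.image (NPt.oo : _ → NP A Foo F0 ι)) (Z2.image NPt.zero) := by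
      rw [Finset.disjoint_left]
      intro v hv1 hv2
      obtain ⟨w, -, rfl⟩ := Finset.mem_image.mp hv1
      obtain ⟨w', -, h⟩ := Finset.mem_image.mp hv2
      exact absurd h (by simp)
    rw [Finset.card_union_of_disjoint hdis, Finset.card_image_of_injective _ npt_oo_injective,
      Finset.card_image_of_injective _ npt_zero_injective]
    exact hcard

/-- **One step of the successive choice on the special fibre.** -/
theorem auxN_step [Fintype ι] [DecidableEq (NP A Foo F0 ι)]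
    [DecidableEq (Place (kRes A) Foo)] [DecidableEq (Place (kRes A) F0)]
    (G : NodalData N A Foo F0 ι)
    (hdeg1 : ∀ v : Place (kRes A) Foo, v.deg = 1) (hdeg2 : ∀ v : Place (kRes A) F0, v.deg = 1)
    [HasPrincipalDivisors (kRes A) Foo] [HasPrincipalDivisors (kRes A) F0]
    (Qoo : Place (kRes A) Foo) (Q0 : Place (kRes A) F0)
    (hG1 : ∀ bad : Finset (Place (kRes A) Foo),
      (∃ n₀ : ℕ, ∀ n : ℕ, n₀ ≤ n →
        ∃ f : Foo, f ≠ 0 ∧ Qoo.ord f = -(n : ℤ) ∧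
          (∀ v, v ≠ Qoo → 0 ≤ v.ord f ∧ v.ord f ≤ 1) ∧
          (∀ v ∈ Finset.univ.image G.nOo, 1 ≤ v.ord (f - 1)) ∧
          ∀ v ∈ bad, v ≠ Qoo → v.ord f = 0) ∧
      ∀ Q : Place (kRes A) Foo, Q ≠ Qoo → Q ∉ Finset.univ.image G.nOo →
        ∃ n₀ : ℕ, ∀ n : ℕ, n₀ ≤ n →
          ∃ f : Foo, f ≠ 0 ∧ Qoo.ord f = -(n : ℤ) ∧ Q.ord f = 1 ∧
            (∀ v, v ≠ Qoo → 0 ≤ v.ord f ∧ v.ord f ≤ 1) ∧
            (∀ v ∈ Finset.univ.image G.nOo, 1 ≤ v.ord (f - 1)) ∧
            ∀ v ∈ bad, v ≠ Q → v ≠ Qoo → v.ord f = 0)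
    (hG2 : ∀ bad : Finset (Place (kRes A) F0),
      (∃ n₀ : ℕ, ∀ n : ℕ, n₀ ≤ n →
        ∃ f : F0, f ≠ 0 ∧ Q0.ord f = -(n : ℤ) ∧
          (∀ v, v ≠ Q0 → 0 ≤ v.ord f ∧ v.ord f ≤ 1) ∧
          (∀ v ∈ Finset.univ.image G.n0, 1 ≤ v.ord (f - 1)) ∧
          ∀ v ∈ bad, v ≠ Q0 → v.ord f = 0) ∧
      ∀ Q : Place (kRes A) F0, Q ≠ Q0 → Q ∉ Finset.univ.image G.n0 →
        ∃ n₀ : ℕ, ∀ n : ℕ, n₀ ≤ n →
          ∃ f : F0, f ≠ 0 ∧ Q0.ord f = -(n : ℤ) ∧ Q.ord f = 1 ∧
            (∀ v, v ≠ Q0 → 0 ≤ v.ord f ∧ v.ord f ≤ 1) ∧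
            (∀ v ∈ Finset.univ.image G.n0, 1 ≤ v.ord (f - 1)) ∧
            ∀ v ∈ bad, v ≠ Q → v ≠ Q0 → v.ord f = 0)
    (Qmain : NP A Foo F0 ι) (hmain : IsSm G Qmain) (hne1 : Qmain ≠ NPt.oo Qoo)
    (hne2 : Qmain ≠ NPt.zero Q0) (B : Finset (NP A Foo F0 ι)) (m : ℕ) :
    ∃ (n : ℕ) (x : Foo) (y : F0) (Z : Finset (NP A Foo F0 ι)),
      IsAuxOneN G Qmain B Qoo Q0 m n x y Z := by
  set bad1 : Finset (Place (kRes A) Foo) :=
    B.preimage NPt.oo (npt_oo_injective.injOn) with hbad1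
  set bad2 : Finset (Place (kRes A) F0) :=
    B.preimage NPt.zero (npt_zero_injective.injOn) with hbad2
  have hnode1 : ∀ (f : Foo), (∀ v ∈ Finset.univ.image G.nOo, 1 ≤ v.ord (f - 1)) →
      ∀ ν, 1 ≤ (G.nOo ν).ord (f - 1) := fun f h ν =>
    h _ (Finset.mem_image_of_mem _ (Finset.mem_univ ν))
  have hnode2 : ∀ (f : F0), (∀ v ∈ Finset.univ.image G.n0, 1 ≤ v.ord (f - 1)) →
      ∀ ν, 1 ≤ (G.n0 ν).ord (f - 1) := fun f h ν =>
    h _ (Finset.mem_image_of_mem _ (Finset.mem_univ ν))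
  rcases Qmain with Q | Q | ν
  · -- the main zero lies on `C_∞`
    have hQ : Q ≠ Qoo := fun h => hne1 (by rw [h])
    have hQn : Q ∉ Finset.univ.image G.nOo := by
      intro h
      obtain ⟨ν, -, rfl⟩ := Finset.mem_image.mp h
      exact hmain ⟨ν, rfl⟩
    obtain ⟨n, x, y, Z1, Z2, c1, c2, c3, c4, c5, c6, c7, c8, c9, c10, c11, c12, c13, c14, c15,
      c16, c17, c18, c19, c20, c21⟩ :=
      auxN_pair hdeg1 hdeg2 hQ (Finset.univ.image G.nOo) bad1 (Finset.univ.image G.n0) bad2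
        ((hG1 bad1).2 Q hQ hQn) (hG2 bad2).1 m
    refine ⟨n, x, y, _, auxN_build G (NPt.oo Q) B Qoo Q0 m n x y Z1 Z2 c1 c2 c3 c4 c5 c7 c8
      (hnode1 x c9) (hnode2 y c10) c6 c11 c16 c13 c17 ?_ ?_ ?_ ?_ ?_⟩
    · intro v hv hvQ hvZ
      exact c14 v hv (fun h => hvQ (by rw [h])) hvZ
    · intro v hv _ hvZ
      exact c18 v hv hvZ
    · intro v hv hvB
      exact Finset.disjoint_left.mp c15 hv (Finset.mem_preimage.mpr hvB)
    · intro v hv hvB
      exact Finset.disjoint_left.mp c19 hv (Finset.mem_preimage.mpr hvB)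
    · omega
  · -- the main zero lies on `C_0`
    have hQ : Q ≠ Q0 := fun h => hne2 (by rw [h])
    have hQn : Q ∉ Finset.univ.image G.n0 := by
      intro h
      obtain ⟨ν, -, rfl⟩ := Finset.mem_image.mp h
      exact hmain ⟨ν, rfl⟩
    obtain ⟨n, y, x, Z2, Z1, c1, c2, c3, c4, c5, c6, c7, c8, c9, c10, c11, c12, c13, c14, c15,
      c16, c17, c18, c19, c20, c21⟩ :=
      auxN_pair hdeg2 hdeg1 hQ (Finset.univ.image G.n0) bad2 (Finset.univ.image G.nOo) bad1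
        ((hG2 bad2).2 Q hQ hQn) (hG1 bad1).1 m
    refine ⟨n, x, y, _, auxN_build G (NPt.zero Q) B Qoo Q0 m n x y Z1 Z2 c1 c3 c2 c5 c4 c8 c7
      (hnode1 x c10) (hnode2 y c9) c6 c16 c11 c17 c13 ?_ ?_ ?_ ?_ ?_⟩
    · intro v hv _ hvZ
      exact c18 v hv hvZ
    · intro v hv hvQ hvZ
      exact c14 v hv (fun h => hvQ (by rw [h])) hvZ
    · intro v hv hvB
      exact Finset.disjoint_left.mp c19 hv (Finset.mem_preimage.mpr hvB)
    · intro v hv hvB
      exact Finset.disjoint_left.mp c15 hv (Finset.mem_preimage.mpr hvB)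
    · omega
  · exact absurd hmain (by simp [IsSm])

/-- Weakening of the avoided set. -/
theorem IsAuxOneN.mono {G : NodalData N A Foo F0 ι} {Qmain : NP A Foo F0 ι}
    {B₀ B₁ : Finset (NP A Foo F0 ι)} {Qoo : Place (kRes A) Foo} {Q0 : Place (kRes A) F0}
    {m n : ℕ} {x : Foo} {y : F0} {Z : Finset (NP A Foo F0 ι)}
    (h : IsAuxOneN G Qmain B₁ Qoo Q0 m n x y Z) (hB : B₀ ⊆ B₁) :
    IsAuxOneN G Qmain B₀ Qoo Q0 m n x y Z :=
  { le := h.le
    ne_zero := h.ne_zero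
    glued := h.glued
    node_unit := h.node_unit
    pole := h.pole
    reg_oo := h.reg_oo
    reg_zero := h.reg_zero
    zero_main := h.zero_main
    zero_extra := h.zero_extra
    zero_else := h.zero_else
    sm_extra := h.sm_extra
    qinf_notMem := h.qinf_notMem
    avoid := fun v hv => h.avoid v (hB hv)
    card := h.card }

/-- **[N-AUX]** (row 1144, twin of FF-G7-AUX): existence of the auxiliary sections on the
two-component fibre. -/
theorem auxSectionsN (hGS : GenericSectionN) : AuxSectionsN := by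
  classical
  intro N p A Foo F0 _ _ _ _ ι G g hSet hPkg O t hJac
  have hp : p.Prime := hSet.prime
  haveI : Fact p.Prime := ⟨hp⟩
  haveI : CharP (kRes A) p := nb_charP hp hSet.liesOver (kRes A)
  haveI : IsAlgClosed (kRes A) := hPkg.algClosed
  haveI : Finite ι := hPkg.fin
  haveI : Fintype ι := Fintype.ofFinite ι
  obtain ⟨gOo, gZ, pkgOo, pkgZ, -⟩ := hPkg.nc g hSet.pkgL
  haveI := pkgOo.infinite_places
  haveI := pkgZ.infinite_places
  haveI := pkgOo.principal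
  haveI := pkgZ.principal
  set Qs : Fin g → NP A Foo F0 ι := fun i => G.r (O i) with hQs
  set B : Finset (NP A Foo F0 ι) := Finset.univ.image Qs with hB
  -- the points at infinity on the two components
  obtain ⟨Qoo, hQoo⟩ := Infinite.exists_notMem_finset
    (Finset.univ.image G.nOo ∪ B.preimage NPt.oo npt_oo_injective.injOn)
  obtain ⟨Q0, hQ0⟩ := Infinite.exists_notMem_finset
    (Finset.univ.image G.n0 ∪ B.preimage NPt.zero npt_zero_injective.injOn)
  rw [Finset.mem_union, not_or] at hQoo hQ0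
  have hsmoo : Qoo ∉ Set.range G.nOo := by
    rintro ⟨ν, rfl⟩
    exact hQoo.1 (Finset.mem_image_of_mem _ (Finset.mem_univ ν))
  have hsm0 : Q0 ∉ Set.range G.n0 := by
    rintro ⟨ν, rfl⟩
    exact hQ0.1 (Finset.mem_image_of_mem _ (Finset.mem_univ ν))
  have hne : ∀ i, Qs i ≠ NPt.oo Qoo ∧ Qs i ≠ NPt.zero Q0 := by
    intro i
    constructor
    · intro h
      apply hQoo.2
      rw [Finset.mem_preimage, ← h]
      exact Finset.mem_image_of_mem _ (Finset.mem_univ i)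
    · intro h
      apply hQ0.2
      rw [Finset.mem_preimage, ← h]
      exact Finset.mem_image_of_mem _ (Finset.mem_univ i)
  obtain ⟨Poo, hrPoo, huPoo⟩ := hPkg.lift.pt_oo Qoo hsmoo
  obtain ⟨P0, hrP0, huP0⟩ := hPkg.lift.pt_zero Q0 hsm0
  refine ⟨Poo, P0, Qoo, Q0, hrPoo, hrP0, huPoo, huP0, fun n₁ => ?_⟩
  obtain ⟨nL, hnL⟩ := hPkg.lift.lift Poo P0 Qoo Q0 hrPoo hrP0 huPoo huP0
  -- the points `Qs i` are smooth
  have hsmQ : ∀ i, IsSm G (Qs i) := by
    intro i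
    have h1 := (hJac.coord i).smooth
    show IsSm G (G.r (O i))
    rcases h : G.r (O i) with Q | Q | ν
    · exact hSet.rv.r_oo (O i) Q h
    · exact hSet.rv.r_zero (O i) Q h
    · exact absurd h (h1 ν)
  -- generic sections on both components
  have hG1 := fun bad : Finset (Place (kRes A) Foo) =>
    hGS (kRes A) Foo p gOo pkgOo hPkg.sepOo Qoo (Finset.univ.image G.nOo) bad hQoo.1
  have hG2 := fun bad : Finset (Place (kRes A) F0) =>
    hGS (kRes A) F0 p gZ pkgZ hPkg.sepZero Q0 (Finset.univ.image G.n0) bad hQ0.1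
  -- successive choice
  obtain ⟨c, hc1, hc2⟩ := Fermat.Agent.H93.FF.aux_exists_successive (J := Fin g ⊕ Fin g)
    (X := ℕ × Foo × F0 × Finset (NP A Foo F0 ι))
    (fun a x => IsAuxOneN G (Qs (jproj a)) B Qoo Q0 (max n₁ nL) x.1 x.2.1 x.2.2.1 x.2.2.2)
    (fun x y => Disjoint x.2.2.2 y.2.2.2) (by
      intro a C
      obtain ⟨n, x, y, Z, h⟩ := auxN_step G pkgOo.deg_one pkgZ.deg_one Qoo Q0 hG1 hG2
        (Qs (jproj a)) (hsmQ _) (hne _).1 (hne _).2 (B ∪ C.biUnion (fun x => x.2.2.2))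
        (max n₁ nL)
      refine ⟨(n, x, y, Z), h.mono Finset.subset_union_left, ?_⟩
      intro z hz
      have hd : Disjoint Z z.2.2.2 := by
        rw [Finset.disjoint_left]
        intro v hv hvz
        exact h.avoid v (Finset.mem_union_right _ (Finset.mem_biUnion.mpr ⟨z, hz, hvz⟩)) hv
      exact ⟨hd, hd.symm⟩)
  have hmemx : ∀ a, (c a).2.1 ∈ riemannRochSpace (Finsupp.single Qoo (((c a).1 : ℕ) : ℤ)) := by
    intro a
    rw [mem_riemannRochSpace_iff]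
    intro v
    right
    by_cases hv : v = Qoo
    · rw [hv, Finsupp.single_eq_same, (hc1 a).pole.1]
    · rw [Finsupp.single_eq_of_ne hv, neg_zero]
      exact (hc1 a).reg_oo v hv
  have hmemy : ∀ a, (c a).2.2.1 ∈ riemannRochSpace (Finsupp.single Q0 (((c a).1 : ℕ) : ℤ)) := by
    intro a
    rw [mem_riemannRochSpace_iff]
    intro v
    right
    by_cases hv : v = Q0
    · rw [hv, Finsupp.single_eq_same, (hc1 a).pole.2]
    · rw [Finsupp.single_eq_of_ne hv, neg_zero]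
      exact (hc1 a).reg_zero v hv
  choose u hu hu0 hu1 hu2 hu3 hu4 using fun a =>
    hnL (c a).1 (le_trans (le_max_right _ _) (hc1 a).le) (c a).2.1 (hmemx a) (c a).2.2.1
      (hmemy a) (hc1 a).glued
  refine ⟨fun a => (c a).1, fun a => ⟨u a, Subring.mem_inf.mpr ⟨hu a, hu0 a⟩⟩,
    fun a => (c a).2.2.2, fun a => le_trans (le_max_left _ _) (hc1 a).le, hu1, hu2, ?_⟩
  have hfo : (fun a => redOoO G ⟨u a, Subring.mem_inf.mpr ⟨hu a, hu0 a⟩⟩) =
      fun a => (c a).2.1 := funext fun a => hu3 a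
  have hfz : (fun a => red0O G ⟨u a, Subring.mem_inf.mpr ⟨hu a, hu0 a⟩⟩) =
      fun a => (c a).2.2.1 := funext fun a => hu4 a
  rw [hfo, hfz]
  exact
    { sm_oo := hsmoo
      sm_zero := hsm0
      qinf_ne := hne
      ne_zero := fun a => (hc1 a).ne_zero
      glued := fun a => (hc1 a).glued
      node_unit := fun a => (hc1 a).node_unit
      pole := fun a => (hc1 a).pole
      zero_main := fun a => (hc1 a).zero_main
      zero_extra := fun a => (hc1 a).zero_extra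
      zero_else := fun a => (hc1 a).zero_else
      sm_extra := fun a => (hc1 a).sm_extra
      qinf_notMem := fun a => (hc1 a).qinf_notMem
      qs_notMem := fun a i => (hc1 a).avoid _ (Finset.mem_image_of_mem _ (Finset.mem_univ i))
      disj := hc2
      card := fun a => (hc1 a).card }

end Fermat.Agent.H90.ORD
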